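import Fermat.Agent.ArtinWhaples.Embedding

/-!
# Many points, two close together

An upper bound for the product of all the absolute values of a difference, and two pigeonholes:
balls of a discrete place with finite residue field, and squares in the plane.
-/

set_option autoImplicit false

noncomputable section

open Height Height.AdmissibleAbsValues Finset

namespace FA.ArtinWhaples

variable {K : Type*} [Field K]

section Products

variable [AdmissibleAbsValues K]

/-- The product of the nonarchimedean values, bounded. -/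
theorem finprod_nonarch_le {z : K} (hz : z ≠ 0) {c : nonarchAbsVal (K := K) → ℝ}
    (hc : c.HasFiniteMulSupport) (hle : ∀ v, v.val z ≤ c v) :
    (∏ᶠ v : nonarchAbsVal (K := K), v.val z) ≤ ∏ᶠ v, c v := by
  classical
  set s : Finset (nonarchAbsVal (K := K)) :=
    (hasFiniteMulSupport hz).toFinset ∪ Set.Finite.toFinset hc
  rw [finprod_eq_prod_of_mulSupport_subset _ (s := s) (by simp [s]),
    finprod_eq_prod_of_mulSupport_subset _ (s := s) (by simp [s])]
  exact prod_le_prod (fun v _ => v.val.nonneg z) fun v _ => hle v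

/-- The same, keeping one of them. -/
theorem finprod_nonarch_le_mul {z : K} (hz : z ≠ 0) {c : nonarchAbsVal (K := K) → ℝ}
    (hc : c.HasFiniteMulSupport) (hle : ∀ v, v.val z ≤ c v) (hc1 : ∀ v, 1 ≤ c v)
    (u : nonarchAbsVal (K := K)) :
    (∏ᶠ v : nonarchAbsVal (K := K), v.val z) ≤ (∏ᶠ v, c v) * u.val z := by
  classical
  set s : Finset (nonarchAbsVal (K := K)) :=
    insert u ((hasFiniteMulSupport hz).toFinset ∪ Set.Finite.toFinset hc)
  rw [finprod_eq_prod_of_mulSupport_subset _ (s := s) (by intro v; simp +contextual [s]),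
    finprod_eq_prod_of_mulSupport_subset _ (s := s) (by intro v; simp +contextual [s])]
  have hu : u ∈ s := mem_insert_self _ _
  have h1 : ∏ v ∈ s.erase u, v.val z ≤ ∏ v ∈ s.erase u, c v :=
    prod_le_prod (fun v _ => v.val.nonneg z) fun v _ => hle v
  have h2 : (1 : ℝ) ≤ c u := hc1 u
  have h3 : 0 ≤ ∏ v ∈ s.erase u, c v := prod_nonneg fun v _ => zero_le_one.trans (hc1 v)
  rw [← mul_prod_erase s _ hu, ← mul_prod_erase s _ hu]
  calc u.val z * ∏ v ∈ s.erase u, v.val z ≤ u.val z * ∏ v ∈ s.erase u, c v :=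
        mul_le_mul_of_nonneg_left h1 (u.val.nonneg z)
    _ ≤ c u * (∏ v ∈ s.erase u, c v) * u.val z := by
        rw [mul_comm (u.val z)]
        refine mul_le_mul_of_nonneg_right ?_ (u.val.nonneg z)
        exact le_mul_of_one_le_left h3 h2

omit [AdmissibleAbsValues K] in
theorem prod_arch_le {z : K} {b : ℝ} (m : Multiset (AbsoluteValue K ℝ))
    (hle : ∀ v ∈ m, v z ≤ b) : (m.map (· z)).prod ≤ b ^ m.card := by
  refine (Multiset.prod_map_le_prod_map₀ (fun v : AbsoluteValue K ℝ => v z) (fun _ => b)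
    (fun v _ => v.nonneg z) hle).trans_eq ?_
  simp

end Products

/-- Among more than `#S ^ k` points of the unit ball two differ by at most `ρ ^ k`. -/
theorem exists_close (w : AbsoluteValue K ℝ) {π : K} (hπ0 : 0 < w π)
    (hdisc : ∀ z, w z < 1 → w z ≤ w π) (S : Finset K)
    (hS : ∀ z, w z ≤ 1 → ∃ r ∈ S, w (z - r) < 1) (k : ℕ) :
    ∀ P : Finset K, (∀ x ∈ P, w x ≤ 1) → #S ^ k < #P →
      ∃ x ∈ P, ∃ y ∈ P, x ≠ y ∧ w (x - y) ≤ 2 * w π ^ k := by
  classical
  induction k with
  | zero =>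
    intro P hP hcard
    obtain ⟨x, hx, y, hy, hne⟩ := one_lt_card.1 (by simpa using hcard : 1 < #P)
    refine ⟨x, hx, y, hy, hne, ?_⟩
    rw [sub_eq_add_neg, pow_zero, mul_one]
    refine (w.add_le _ _).trans ?_
    rw [w.map_neg]
    linarith [hP x hx, hP y hy]
  | succ k ih =>
    intro P hP hcard
    choose! r hr hr' using hS
    have hπne : π ≠ 0 := fun h => by rw [h, map_zero] at hπ0; exact lt_irrefl _ hπ0
    obtain ⟨e, -, he⟩ := exists_lt_card_fiber_of_mul_lt_card_of_maps_to (f := r) (n := #S ^ k)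
      (fun x hx => hr x (hP x hx)) (by rwa [mul_comm, ← pow_succ])
    set Q := P.filter fun x => r x = e
    have hinj : Function.Injective fun x : K => (x - e) / π := fun x y h => by
      simpa [div_left_inj' hπne] using h
    obtain ⟨x', hx', y', hy', hne, hxy⟩ := ih (Q.image fun x => (x - e) / π) (fun x' hx' => by
      obtain ⟨x, hx, rfl⟩ := mem_image.1 hx'
      obtain ⟨hxP, hxe⟩ := mem_filter.1 hx
      rw [map_div₀, div_le_one hπ0]
      exact hdisc _ (hxe ▸ hr' x (hP x hxP))) (by rwa [card_image_of_injective _ hinj])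
    obtain ⟨x, hx, rfl⟩ := mem_image.1 hx'
    obtain ⟨y, hy, rfl⟩ := mem_image.1 hy'
    refine ⟨x, (mem_filter.1 hx).1, y, (mem_filter.1 hy).1, fun h => hne (by rw [h]), ?_⟩
    rw [← sub_div, sub_sub_sub_cancel_right, map_div₀, div_le_iff₀ hπ0] at hxy
    calc w (x - y) ≤ 2 * w π ^ k * w π := hxy
      _ = 2 * w π ^ (k + 1) := by ring

/-- The same in a larger ball. -/
theorem exists_close_scaled (w : AbsoluteValue K ℝ) {π : K} (hπ0 : 0 < w π)
    (hdisc : ∀ z, w z < 1 → w z ≤ w π) (S : Finset K)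
    (hS : ∀ z, w z ≤ 1 → ∃ r ∈ S, w (z - r) < 1) (L k : ℕ) (P : Finset K)
    (hP : ∀ x ∈ P, w x * w π ^ L ≤ 1) (hcard : #S ^ k < #P) :
    ∃ x ∈ P, ∃ y ∈ P, x ≠ y ∧ w (x - y) * w π ^ L ≤ 2 * w π ^ k := by
  classical
  have hπne : π ≠ 0 := fun h => by rw [h, map_zero] at hπ0; exact lt_irrefl _ hπ0
  obtain ⟨x', hx', y', hy', hne, h⟩ := exists_close w hπ0 hdisc S hS k
    (P.image fun x => x * π ^ L) (fun x' hx' => by
      obtain ⟨x, hx, rfl⟩ := mem_image.1 hx'
      rw [map_mul, map_pow]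
      exact hP x hx)
    (by rwa [card_image_of_injective _ (mul_left_injective₀ (pow_ne_zero L hπne))])
  obtain ⟨x, hx, rfl⟩ := mem_image.1 hx'
  obtain ⟨y, hy, rfl⟩ := mem_image.1 hy'
  refine ⟨x, hx, y, hy, fun h => hne (by rw [h]), ?_⟩
  rwa [← sub_mul, map_mul, map_pow] at h

/-- More than `(2 ^ j + 1) ^ 2` points of a square give two close ones. -/
theorem exists_close_plane {ι : Type*} (P : Finset ι) (f : ι → ℂ) {R : ℝ} (hR : 0 < R) (j : ℕ)
    (hf : ∀ x ∈ P, ‖f x‖ ≤ R) (hcard : (2 ^ j + 1) ^ 2 < #P) :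
    ∃ x ∈ P, ∃ y ∈ P, x ≠ y ∧ ‖f x - f y‖ ≤ 4 * R / 2 ^ j := by
  set d : ℝ := 2 * R / 2 ^ j with hd
  have hd0 : 0 < d := by positivity
  set cell : ℝ → ℕ := fun u => ⌊(u + R) / d⌋₊ with hcell
  have hmem : ∀ u, |u| ≤ R → cell u ∈ range (2 ^ j + 1) := by
    intro u hu
    rw [mem_range, Nat.lt_succ_iff, hcell]
    refine Nat.floor_le_of_le ?_
    rw [div_le_iff₀ hd0, hd]
    push_cast
    rw [mul_div_cancel₀ _ (by positivity)]
    linarith [le_abs_self u]
  have hclose : ∀ u v, |u| ≤ R → |v| ≤ R → cell u = cell v → |u - v| ≤ d := by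
    intro u v hu hv h
    have hu0 : 0 ≤ (u + R) / d := div_nonneg (by linarith [neg_abs_le u]) hd0.le
    have hv0 : 0 ≤ (v + R) / d := div_nonneg (by linarith [neg_abs_le v]) hd0.le
    have h1 := Nat.floor_le hu0
    have h2 := Nat.lt_floor_add_one ((u + R) / d)
    have h3 := Nat.floor_le hv0
    have h4 := Nat.lt_floor_add_one ((v + R) / d)
    simp only [hcell] at h
    rw [h] at h1 h2
    have h5 : |(u + R) / d - (v + R) / d| ≤ 1 := abs_le.2 ⟨by linarith, by linarith⟩
    rwa [← sub_div, add_sub_add_right_eq_sub, abs_div, abs_of_pos hd0, div_le_one hd0] at h5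
  obtain ⟨x, hx, y, hy, hne, h⟩ := exists_ne_map_eq_of_card_lt_of_maps_to
    (t := range (2 ^ j + 1) ×ˢ range (2 ^ j + 1)) (f := fun x => (cell (f x).re, cell (f x).im))
    (by rwa [card_product, card_range, ← sq])
    (fun x hx => mem_product.2 ⟨hmem _ ((Complex.abs_re_le_norm _).trans (hf x hx)),
      hmem _ ((Complex.abs_im_le_norm _).trans (hf x hx))⟩)
  obtain ⟨h1, h2⟩ := Prod.mk.injEq .. ▸ h
  refine ⟨x, hx, y, hy, hne, (Complex.norm_le_abs_re_add_abs_im _).trans ?_⟩
  rw [Complex.sub_re, Complex.sub_im]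
  have e1 := hclose _ _ ((Complex.abs_re_le_norm _).trans (hf x hx))
    ((Complex.abs_re_le_norm _).trans (hf y hy)) h1
  have e2 := hclose _ _ ((Complex.abs_im_le_norm _).trans (hf x hx))
    ((Complex.abs_im_le_norm _).trans (hf y hy)) h2
  calc |(f x).re - (f y).re| + |(f x).im - (f y).im| ≤ d + d := add_le_add e1 e2
    _ = 4 * R / 2 ^ j := by rw [hd]; ring

end FA.ArtinWhaples
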