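import Mathlib

/-!
# An archimedean absolute value

If `w 2 > 1` then the characteristic is zero, a power `g` of `w` restricts to `|·|` on `ℚ` and the
completion for `g` is a normed `ℝ`-algebra, so it is `ℝ` or `ℂ` by Gelfand and Mazur.
-/

set_option autoImplicit false

noncomputable section

open Filter Topology

namespace FA.ArtinWhaples

variable {K : Type*} [Field K] (w : AbsoluteValue K ℝ)

theorem apply_natCast_le (n : ℕ) : w n ≤ n := by
  induction n with
  | zero => simp
  | succ n ih =>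
    push_cast
    exact (w.add_le _ _).trans (by rw [map_one]; linarith)

theorem charZero_of_two (h2 : 1 < w 2) : CharZero K := by
  obtain ⟨p, hp⟩ := CharP.exists K
  rcases eq_or_ne p 0 with rfl | h0
  · exact CharP.charP_to_charZero K
  exfalso
  have hb : ∀ k : ℕ, w 2 ^ k ≤ p := fun k => by
    have e : (2 : K) ^ k = ((2 ^ k % p : ℕ) : K) := by
      rw [← CharP.cast_eq_mod K p (2 ^ k), Nat.cast_pow, Nat.cast_ofNat]
    rw [← map_pow, e]
    exact (apply_natCast_le w _).trans (Nat.cast_le.2 (Nat.mod_lt _ (Nat.pos_of_ne_zero h0)).le)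
  obtain ⟨k, hk⟩ := pow_unbounded_of_one_lt (p : ℝ) h2
  exact absurd (hb k) (not_le.2 hk)

theorem exists_gauge (h2 : 1 < w 2) :
    ∃ (g : AbsoluteValue K ℝ) (s : ℝ), 0 < s ∧ (∀ x, w x = g x ^ s) ∧
      ∀ q : ℚ, g q = |(q : ℝ)| := by
  have := charZero_of_two w h2
  set f : AbsoluteValue ℚ ℝ := w.comp (Rat.castHom K).injective with hf
  have hf' : ∀ q : ℚ, f q = w q := fun q => rfl
  have hf2 : 1 < f 2 := by
    rw [hf', Rat.cast_ofNat]
    exact h2
  have hreal : f.IsEquiv Rat.AbsoluteValue.real := by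
    refine (Rat.AbsoluteValue.equiv_real_or_padic f ⟨2, two_ne_zero, hf2.ne'⟩).resolve_right ?_
    rintro ⟨p, ⟨hp, he⟩, -⟩
    obtain ⟨c, hc, hce⟩ := AbsoluteValue.isEquiv_iff_exists_rpow_eq.1 he
    have h : f 2 ^ c = Rat.AbsoluteValue.padic p 2 := congrFun hce 2
    exact absurd (Rat.AbsoluteValue.padic_le_one p 2)
      (not_le.2 (by exact_mod_cast h ▸ Real.one_lt_rpow hf2 hc))
  obtain ⟨c, hc, hce⟩ := AbsoluteValue.isEquiv_iff_exists_rpow_eq.1 hreal
  have hq : ∀ q : ℚ, w q ^ c = |(q : ℝ)| := fun q => by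
    rw [← hf']
    simpa using congrFun hce q
  set s : ℝ := c⁻¹ with hs
  have hs0 : 0 < s := inv_pos.2 hc
  have hnat : ∀ m : ℕ, w m = (m : ℝ) ^ s := fun m => by
    have h := hq m
    rw [Rat.cast_natCast, Rat.cast_natCast, Nat.abs_cast] at h
    rw [← h, hs, Real.rpow_rpow_inv (w.nonneg _) hc.ne']
  have hadd : ∀ x y, w (x + y) ^ c ≤ w x ^ c + w y ^ c := by
    intro x y
    set A := w x ^ c with hA
    set B := w y ^ c with hB
    have hA0 : 0 ≤ A := Real.rpow_nonneg (w.nonneg _) _
    have hB0 : 0 ≤ B := Real.rpow_nonneg (w.nonneg _) _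
    have hAs : A ^ s = w x := Real.rpow_rpow_inv (w.nonneg _) hc.ne'
    have hBs : B ^ s = w y := Real.rpow_rpow_inv (w.nonneg _) hc.ne'
    have hroot : w (x + y) ≤ (A + B) ^ s := by
      by_contra hcon
      push Not at hcon
      have hbound : ∀ n : ℕ, w (x + y) ^ n ≤ (n + 1) * ((A + B) ^ s) ^ n := by
        intro n
        rw [← map_pow, add_pow]
        refine (w.sum_le _ _).trans ?_
        calc ∑ i ∈ Finset.range (n + 1), w (x ^ i * y ^ (n - i) * (n.choose i : K))
            ≤ ∑ _i ∈ Finset.range (n + 1), ((A + B) ^ s) ^ n := by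
              refine Finset.sum_le_sum fun i hi => ?_
              rw [map_mul, map_mul, map_pow, map_pow, hnat, ← hAs, ← hBs, ← Real.rpow_natCast,
                ← Real.rpow_natCast (B ^ s), ← Real.rpow_natCast ((A + B) ^ s),
                ← Real.rpow_mul hA0, ← Real.rpow_mul hB0, ← Real.rpow_mul (add_nonneg hA0 hB0),
                mul_comm s, mul_comm s, mul_comm s, Real.rpow_mul hA0, Real.rpow_mul hB0,
                Real.rpow_mul (add_nonneg hA0 hB0), Real.rpow_natCast, Real.rpow_natCast,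
                Real.rpow_natCast, ← Real.mul_rpow (pow_nonneg hA0 _) (pow_nonneg hB0 _),
                ← Real.mul_rpow (mul_nonneg (pow_nonneg hA0 _) (pow_nonneg hB0 _))
                  (Nat.cast_nonneg _)]
              refine Real.rpow_le_rpow (mul_nonneg (mul_nonneg (pow_nonneg hA0 _)
                (pow_nonneg hB0 _)) (Nat.cast_nonneg _)) ?_ hs0.le
              rw [add_pow]
              exact Finset.single_le_sum
                (f := fun j => A ^ j * B ^ (n - j) * (n.choose j : ℝ))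
                (fun j _ => by positivity) hi
          _ = _ := by simp
      rcases (Real.rpow_nonneg (add_nonneg hA0 hB0) s).eq_or_lt with h0 | h0
      · have h := hbound 1
        rw [← h0] at h hcon
        simp at h
        rw [h, map_zero] at hcon
        exact lt_irrefl _ hcon
      set r := (A + B) ^ s / w (x + y)
      have hr1 : r < 1 := (div_lt_one (h0.trans hcon)).2 hcon
      have ht : Tendsto (fun n : ℕ => ((n : ℝ) + 1) * r ^ n) atTop (𝓝 0) := by
        simpa [add_mul] using (tendsto_self_mul_const_pow_of_lt_one (by positivity) hr1).add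
          (tendsto_pow_atTop_nhds_zero_of_lt_one (by positivity) hr1)
      obtain ⟨n, hn⟩ := (ht.eventually_lt_const zero_lt_one).exists
      refine absurd (hbound n) (not_le.2 ?_)
      have hpos : 0 < w (x + y) ^ n := pow_pos (h0.trans hcon) n
      rwa [div_pow, mul_div_assoc', div_lt_one hpos] at hn
    calc w (x + y) ^ c ≤ ((A + B) ^ s) ^ c := Real.rpow_le_rpow (w.nonneg _) hroot hc.le
      _ = A + B := Real.rpow_inv_rpow (add_nonneg hA0 hB0) hc.ne'
  let g : AbsoluteValue K ℝ :=
    { toFun := fun x => w x ^ c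
      map_mul' := fun x y => by rw [map_mul, Real.mul_rpow (w.nonneg _) (w.nonneg _)]
      nonneg' := fun x => Real.rpow_nonneg (w.nonneg _) _
      eq_zero' := fun x => by rw [Real.rpow_eq_zero (w.nonneg _) hc.ne', w.eq_zero]
      add_le' := hadd }
  exact ⟨g, s, hs0, fun x => (Real.rpow_rpow_inv (w.nonneg _) hc.ne').symm, hq⟩

theorem exists_embedding [CharZero K] (g : AbsoluteValue K ℝ)
    (hg : ∀ q : ℚ, g q = |(q : ℝ)|) :
    ∃ (φ : K →+ ℂ) (C : ℝ), 0 < C ∧ ∀ x, g x ≤ C * ‖φ x‖ ∧ ‖φ x‖ ≤ C * g x := by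
  let i : K →+* g.Completion :=
    (UniformSpace.Completion.coeRingHom (α := WithAbs g)).comp (WithAbs.equiv g).symm.toRingHom
  have hi : ∀ x, ‖i x‖ = g x := fun x => by
    show ‖((WithAbs.toAbs g x : WithAbs g) : g.Completion)‖ = g x
    rw [UniformSpace.Completion.norm_coe]
    rfl
  let f : ℚ →+* g.Completion := i.comp (Rat.castHom K)
  have hfnorm : ∀ q : ℚ, ‖f q‖ = ‖q‖ := fun q => by
    rw [RingHom.comp_apply, hi]
    exact (hg q).trans (by rw [← Real.norm_eq_abs]; rfl)
  have hfc : UniformContinuous f :=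
    (AddMonoidHomClass.isometry_of_norm f hfnorm).uniformContinuous
  have hu : IsUniformInducing (Rat.castHom ℝ) := Rat.isUniformEmbedding_coe_real.isUniformInducing
  have hd : DenseRange (Rat.castHom ℝ) := Rat.denseRange_cast
  let F := IsDenseInducing.extendRingHom hu hd hfc
  have hFc : Continuous F := (uniformContinuous_uniformly_extend hu hd hfc).continuous
  have hFq : ∀ q : ℚ, F (q : ℝ) = f q := fun q => uniformly_extend_of_ind hu hd hfc q
  have hFnorm : ∀ r : ℝ, ‖F r‖ = |r| := congrFun (hd.equalizer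
    (hFc.norm) continuous_abs (funext fun q => by
      show ‖F (q : ℝ)‖ = |(q : ℝ)|
      rw [hFq, hfnorm, ← Real.norm_eq_abs]
      rfl))
  let : Algebra ℝ g.Completion := F.toAlgebra
  let : NormedAlgebra ℝ g.Completion :=
    { (inferInstance : Algebra ℝ g.Completion) with
      norm_smul_le := fun r x => by
        rw [Algebra.smul_def, norm_mul]
        exact (congrArg (· * ‖x‖) (hFnorm r)).le }
  obtain ⟨ψ, hψ, hfin⟩ : ∃ ψ : g.Completion →ₗ[ℝ] ℂ, Function.Injective ψ ∧
      FiniteDimensional ℝ g.Completion := by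
    rcases NormedAlgebra.Real.nonempty_algEquiv_or g.Completion with ⟨⟨e⟩⟩ | ⟨⟨e⟩⟩
    · exact ⟨Complex.ofRealAm.toLinearMap.comp e.toLinearMap,
        Complex.ofReal_injective.comp e.injective, e.toLinearEquiv.symm.finiteDimensional⟩
    · exact ⟨e.toLinearMap, e.injective, e.toLinearEquiv.symm.finiteDimensional⟩
  obtain ⟨k, hk0, hk⟩ := ψ.exists_antilipschitzWith (LinearMap.ker_eq_bot.2 hψ)
  set P := LinearMap.toContinuousLinearMap ψ
  refine ⟨ψ.toAddMonoidHom.comp i.toAddMonoidHom, max (k : ℝ) ‖P‖ + 1, by positivity, fun x => ?_⟩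
  show g x ≤ _ * ‖ψ (i x)‖ ∧ ‖ψ (i x)‖ ≤ _ * g x
  rw [← hi]
  constructor
  · exact (ZeroHomClass.bound_of_antilipschitz ψ hk (i x)).trans
      (mul_le_mul_of_nonneg_right ((le_max_left _ _).trans (lt_add_one _).le) (norm_nonneg _))
  · exact (P.le_opNorm (i x)).trans
      (mul_le_mul_of_nonneg_right ((le_max_right _ _).trans (lt_add_one _).le) (norm_nonneg _))

end FA.ArtinWhaples
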