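import Fermat.Agent.ArtinWhaples.Counting

/-!
# The theorem of Artin and Whaples

With `n` independent elements the box of small combinations has so many points that two of them
are very close at the special place; the product formula at their difference bounds `n`.
-/

set_option autoImplicit false

noncomputable section

open Height Height.AdmissibleAbsValues Finset Filter Topology

namespace FA.ArtinWhaples

variable {K : Type*} [Field K]

theorem false_of_geometric {C θ : ℝ} (h0 : 0 ≤ θ) (h1 : θ < 1)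
    (h : ∀ t : ℕ, 2 ≤ t → 1 ≤ C * θ ^ t) : False := by
  have ht : Tendsto (fun t : ℕ => C * θ ^ t) atTop (𝓝 0) := by
    simpa using (tendsto_pow_atTop_nhds_zero_of_lt_one h0 h1).const_mul C
  obtain ⟨t, ht1, ht2⟩ := ((ht.eventually_lt_const zero_lt_one).and (eventually_ge_atTop 2)).exists
  exact absurd (h t ht2) (not_le.2 ht1)

theorem finiteDimensional_of_bound {k : Type*} [Field k] [Algebra k K] (n : ℕ)
    (h : ∀ x : Fin n → K, LinearIndependent k x → False) : FiniteDimensional k K := by
  by_contra hfin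
  set b := Module.Free.chooseBasis k K
  have : Infinite (Module.Free.ChooseBasisIndex k K) := by
    by_contra hi
    rw [not_infinite_iff_finite] at hi
    exact hfin (Module.Finite.of_basis b)
  exact h _ (b.linearIndependent.comp _
    ((Fin.valEmbedding.trans (Infinite.natEmbedding _)).injective : Function.Injective _))

theorem apply_intCast_le (w : AbsoluteValue K ℝ) (m : ℤ) : w m ≤ (m.natAbs : ℝ) := by
  rcases Int.natAbs_eq m with h | h
  · rw [h]
    simpa using apply_natCast_le w m.natAbs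
  · rw [h]
    simpa using apply_natCast_le w m.natAbs

section Bounds

variable {n : ℕ} (x : Fin n → K)

/-- The bound at a nonarchimedean place. -/
def coord (v : AbsoluteValue K ℝ) : ℝ := ∏ i, max (v (x i)) 1

theorem one_le_coord (v : AbsoluteValue K ℝ) : 1 ≤ coord x v :=
  Finset.one_le_prod fun _ _ => le_max_right _ _

theorem coord_le {v : AbsoluteValue K ℝ} (hv : IsNonarchimedean v) (a : Fin n → K) {d : ℝ}
    (ha : ∀ i, v (a i) ≤ d) (hd : 0 ≤ d) : v (∑ i, a i * x i) ≤ d * coord x v := by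
  refine Finset.sum_induction _ (fun y => v y ≤ d * coord x v) (fun y z hy hz =>
    (hv y z).trans (max_le hy hz)) ?_ fun i _ => ?_
  · rw [map_zero]
    exact mul_nonneg hd (zero_le_one.trans (one_le_coord x v))
  · rw [map_mul]
    refine mul_le_mul (ha i) ?_ (v.nonneg _) hd
    rw [coord, ← mul_prod_erase _ _ (mem_univ i)]
    exact (le_max_left _ _).trans (le_mul_of_one_le_right (zero_le_one.trans (le_max_right _ _))
      (Finset.one_le_prod fun _ _ => le_max_right _ _))

theorem sum_le_mul (v : AbsoluteValue K ℝ) (a : Fin n → K) {d : ℝ} (ha : ∀ i, v (a i) ≤ d) :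
    v (∑ i, a i * x i) ≤ d * ∑ i, v (x i) := by
  refine (v.sum_le _ _).trans ?_
  rw [mul_sum]
  exact sum_le_sum fun i _ => by
    rw [map_mul]
    exact mul_le_mul_of_nonneg_right (ha i) (v.nonneg _)

variable [AdmissibleAbsValues K]

/-- The bound at the members of the multiset. -/
def archCoord : ℝ := ((archAbsVal (K := K)).map fun v => ∑ i, v (x i)).sum + 1

theorem sum_le_archCoord {v : AbsoluteValue K ℝ} (hv : v ∈ archAbsVal (K := K)) :
    ∑ i, v (x i) ≤ archCoord x := by
  refine (Multiset.single_le_sum (fun y hy => ?_) _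
    (Multiset.mem_map_of_mem (fun v : AbsoluteValue K ℝ => ∑ i, v (x i)) hv)).trans
      (le_add_of_nonneg_right zero_le_one)
  obtain ⟨u, -, rfl⟩ := Multiset.mem_map.1 hy
  exact sum_nonneg fun i _ => u.nonneg _

theorem hasFiniteMulSupport_coord (hx : ∀ i, x i ≠ 0) :
    (fun v : nonarchAbsVal (K := K) => coord x v.val).HasFiniteMulSupport := by
  refine Set.Finite.subset (Set.finite_iUnion fun i => hasFiniteMulSupport (hx i)) fun v hv => ?_
  rw [Function.mem_mulSupport] at hv
  rw [Set.mem_iUnion]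
  by_contra hc
  push Not at hc
  refine hv (prod_eq_one fun i _ => ?_)
  have h : v.val (x i) = 1 := by simpa [Function.mem_mulSupport] using hc i
  rw [h, max_self]

end Bounds

variable [AdmissibleAbsValues K]

/-- A place with finite residue field, in characteristic zero. -/
theorem finite_rat_of_residue [CharZero K] {w : AbsoluteValue K ℝ}
    (hw : w ∈ nonarchAbsVal (K := K)) {π : K} (hπ0 : 0 < w π) (hπ1 : w π < 1)
    (hdisc : ∀ z, w z < 1 → w z ≤ w π) (S : Finset K)
    (hS : ∀ z, w z ≤ 1 → ∃ r ∈ S, w (z - r) < 1) : FiniteDimensional ℚ K := by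
  classical
  set q := #S + 2
  set N := (archAbsVal (K := K)).card
  obtain ⟨n', hn'⟩ := exists_pow_lt_of_lt_one
    (show (0 : ℝ) < ((q : ℝ) ^ N)⁻¹ by positivity) hπ1
  refine finiteDimensional_of_bound (n' + 1) fun x hx => ?_
  have hx0 : ∀ i, x i ≠ 0 := fun i => hx.ne_zero i
  set A := archCoord x
  have hA : 0 ≤ A := add_nonneg (Multiset.sum_nonneg fun y hy => by
    obtain ⟨u, -, rfl⟩ := Multiset.mem_map.1 hy
    exact sum_nonneg fun i _ => u.nonneg _) zero_le_one
  obtain ⟨L, hL⟩ := exists_pow_lt_of_lt_one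
    (inv_pos.2 (zero_lt_one.trans_le (one_le_coord x w))) hπ1
  set c := fun v : nonarchAbsVal (K := K) => coord x v.val
  refine false_of_geometric (C := A ^ N * (∏ᶠ v, c v) * 2 / w π ^ L)
    (θ := (q : ℝ) ^ N * w π ^ n') (by positivity) ?_ fun t ht => ?_
  · have h := mul_lt_mul_of_pos_left hn' (show (0 : ℝ) < (q : ℝ) ^ N by positivity)
    rwa [mul_inv_cancel₀ (show (q : ℝ) ^ N ≠ 0 by positivity)] at h
  set B := q ^ t
  let comb : (Fin (n' + 1) → Fin B) → K := fun a => ∑ i, ((a i : ℕ) : K) * x i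
  have hinj : Function.Injective comb := fun a b h => funext fun i => Fin.ext (by
    have h0 : ∑ i, (((a i : ℕ) : ℚ) - (b i : ℕ)) • x i = 0 := by
      simp only [comb] at h
      simp only [Algebra.smul_def, map_sub, map_natCast, sub_mul, sum_sub_distrib, h, sub_self]
    exact_mod_cast sub_eq_zero.1 (Fintype.linearIndependent_iff.1 hx _ h0 i))
  obtain ⟨y₁, h₁, y₂, h₂, hne, hclose⟩ := exists_close_scaled w hπ0 hdisc S hS L (t * n')
    (univ.image comb) (fun y hy => by
      obtain ⟨a, -, rfl⟩ := mem_image.1 hy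
      have h := coord_le x (AdmissibleAbsValues.isNonarchimedean w hw) (fun i => ((a i : ℕ) : K))
        (fun i => (AdmissibleAbsValues.isNonarchimedean w hw).apply_natCast_le_one) zero_le_one
      rw [one_mul] at h
      refine (mul_le_mul h hL.le (pow_nonneg (w.nonneg _) _)
        (zero_le_one.trans (one_le_coord x w))).trans_eq ?_
      exact mul_inv_cancel₀ (zero_lt_one.trans_le (one_le_coord x w)).ne') (by
      rw [card_image_of_injective _ hinj, card_univ, Fintype.card_fun, Fintype.card_fin,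
        Fintype.card_fin, ← pow_mul]
      calc #S ^ (t * n') ≤ q ^ (t * n') := Nat.pow_le_pow_left (by omega) _
        _ < q ^ (t * (n' + 1)) := Nat.pow_lt_pow_right (by omega) (by nlinarith))
  obtain ⟨a, -, rfl⟩ := mem_image.1 h₁
  obtain ⟨b, -, rfl⟩ := mem_image.1 h₂
  set z := comb a - comb b
  have hz : z ≠ 0 := sub_ne_zero.2 hne
  have hzsum : z = ∑ i, ((((a i : ℕ) : ℤ) - (b i : ℕ) : ℤ) : K) * x i := by
    simp [z, comb, sub_mul, sum_sub_distrib]
  have harch : ∀ v ∈ archAbsVal (K := K), v z ≤ (B : ℝ) * A := fun v hv => by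
    rw [hzsum]
    refine (sum_le_mul x v _ (d := (B : ℝ)) fun i => ?_).trans
      (mul_le_mul_of_nonneg_left (sum_le_archCoord x hv) (Nat.cast_nonneg _))
    refine (apply_intCast_le v _).trans (Nat.cast_le.2 ?_)
    have := (a i).2
    have := (b i).2
    omega
  have hnon : ∀ v : nonarchAbsVal (K := K), v.val z ≤ c v := fun v => by
    rw [hzsum]
    exact (coord_le x (AdmissibleAbsValues.isNonarchimedean v.1 v.2) _
      (fun i => (AdmissibleAbsValues.isNonarchimedean v.1 v.2).apply_intCast_le_one)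
      zero_le_one).trans_eq (one_mul _)
  have hc1 : ∀ v, 1 ≤ c v := fun v => one_le_coord x v.val
  have h1 := prod_arch_le (archAbsVal (K := K)) harch
  have h2 := finprod_nonarch_le_mul hz (hasFiniteMulSupport_coord x hx0) hnon hc1 ⟨w, hw⟩
  have h3 : w z ≤ 2 * w π ^ (t * n') / w π ^ L := (le_div_iff₀ (pow_pos hπ0 L)).2 hclose
  have hfp : 0 ≤ ∏ᶠ v, c v := finprod_nonneg fun v => zero_le_one.trans (hc1 v)
  calc (1 : ℝ) = _ := (product_formula hz).symm
    _ ≤ ((B : ℝ) * A) ^ N * ((∏ᶠ v, c v) * (2 * w π ^ (t * n') / w π ^ L)) :=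
        mul_le_mul h1 (h2.trans (mul_le_mul_of_nonneg_left h3 hfp))
          (finprod_nonneg fun v => v.val.nonneg z) (by positivity)
    _ = _ := by
        simp only [B]
        rw [Nat.cast_pow, mul_pow ((q : ℝ) ^ N), mul_pow ((q : ℝ) ^ t), ← pow_mul, ← pow_mul,
          ← pow_mul, mul_comm N t, mul_comm n' t]
        ring

omit [AdmissibleAbsValues K] in
theorem transcendental_of_small {p : ℕ} [Fact p.Prime] [Algebra (ZMod p) K]
    {w : AbsoluteValue K ℝ} {π : K} (hπ0 : 0 < w π) (hπ1 : w π < 1) :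
    Transcendental (ZMod p) π := by
  intro halg
  have := IntermediateField.adjoin.finiteDimensional halg.isIntegral
  have : Finite (IntermediateField.adjoin (ZMod p) {π}) := Module.finite_of_finite (ZMod p)
  obtain ⟨a, b, hne, h⟩ := Finite.exists_ne_map_eq_of_infinite fun i : ℕ =>
    (⟨π, IntermediateField.mem_adjoin_simple_self _ π⟩ :
      IntermediateField.adjoin (ZMod p) {π}) ^ i
  have h' : π ^ a = π ^ b := congrArg Subtype.val h
  have h'' : w π ^ a = w π ^ b := by rw [← map_pow, h', map_pow]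
  exact hne ((pow_right_strictAnti₀ hπ0 hπ1).injective h'')

/-- A place with finite residue field, in characteristic `p`. -/
theorem finite_ratFunc_of_residue {p : ℕ} [Fact p.Prime] [Algebra (ZMod p) K]
    {w : AbsoluteValue K ℝ} (hw : w ∈ nonarchAbsVal (K := K)) {π : K} (hπ0 : 0 < w π)
    (hπ1 : w π < 1) (hdisc : ∀ z, w z < 1 → w z ≤ w π) (S : Finset K)
    (hS : ∀ z, w z ≤ 1 → ∃ r ∈ S, w (z - r) < 1) :
    FiniteDimensional (IntermediateField.adjoin (ZMod p) {π}) K := by
  classical
  have hp := (Fact.out : p.Prime)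
  set q := #S + 2
  set N := (archAbsVal (K := K)).card
  set M : ℝ := ((archAbsVal (K := K)).map fun v => v π).sum + 1
  have hM1 : 1 ≤ M := le_add_of_nonneg_left (Multiset.sum_nonneg fun y hy => by
    obtain ⟨u, -, rfl⟩ := Multiset.mem_map.1 hy
    exact u.nonneg _)
  set dπ := fun v : nonarchAbsVal (K := K) => max (v.val π) 1
  have hπne : π ≠ 0 := fun h => by rw [h, map_zero] at hπ0; exact lt_irrefl _ hπ0
  have hdπ : dπ.HasFiniteMulSupport := by
    refine (hasFiniteMulSupport hπne).subset fun v hv => ?_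
    simp only [Function.mem_mulSupport, dπ] at hv ⊢
    exact fun h => hv (by rw [h, max_self])
  have hD : 0 < ∏ᶠ v, dπ v := zero_lt_one.trans_le (one_le_finprod fun v => le_max_right _ _)
  obtain ⟨j, hj⟩ := exists_pow_lt_of_lt_one
    (show (0 : ℝ) < ((2 * p * M) ^ N * ∏ᶠ v, dπ v)⁻¹ by
      have : (0 : ℝ) < p := Nat.cast_pos.2 hp.pos
      positivity) hπ1
  refine finiteDimensional_of_bound (q * j + 1) fun x hx => ?_
  have hx0 : ∀ i, x i ≠ 0 := fun i => hx.ne_zero i
  set A := archCoord x
  have hA : 0 ≤ A := add_nonneg (Multiset.sum_nonneg fun y hy => by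
    obtain ⟨u, -, rfl⟩ := Multiset.mem_map.1 hy
    exact sum_nonneg fun i _ => u.nonneg _) zero_le_one
  obtain ⟨L, hL⟩ := exists_pow_lt_of_lt_one
    (inv_pos.2 (zero_lt_one.trans_le (one_le_coord x w))) hπ1
  set c := fun v : nonarchAbsVal (K := K) => coord x v.val
  refine false_of_geometric (C := A ^ N * (∏ᶠ v, c v) * 2 / w π ^ L)
    (θ := (2 * p * M) ^ N * (∏ᶠ v, dπ v) * w π ^ j) (by positivity) ?_ fun t ht => ?_
  · have hpos : (0 : ℝ) < (2 * p * M) ^ N * ∏ᶠ v, dπ v := by
      have : (0 : ℝ) < p := Nat.cast_pos.2 hp.pos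
      positivity
    have h := mul_lt_mul_of_pos_left hj hpos
    rwa [mul_inv_cancel₀ hpos.ne'] at h
  let poly : (Fin t → ZMod p) → K := fun a => ∑ k, algebraMap (ZMod p) K (a k) * π ^ (k : ℕ)
  have hnat : ∀ e : ZMod p, algebraMap (ZMod p) K e = ((e.val : ℕ) : K) := fun e => by
    conv_lhs => rw [← ZMod.natCast_zmod_val e, map_natCast]
  let comb : (Fin (q * j + 1) → Fin t → ZMod p) → K := fun a => ∑ i, poly (a i) * x i
  have hinj : Function.Injective comb := fun a b h => funext fun i => by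
    have hmem : ∀ e, poly e ∈ IntermediateField.adjoin (ZMod p) {π} := fun e =>
      sum_mem fun k _ => mul_mem (IntermediateField.algebraMap_mem _ _)
        (pow_mem (IntermediateField.mem_adjoin_simple_self _ π) _)
    have h0 : ∑ i, ((⟨poly (a i), hmem _⟩ - ⟨poly (b i), hmem _⟩ :
        IntermediateField.adjoin (ZMod p) {π})) • x i = 0 := by
      simp only [comb] at h
      simp only [IntermediateField.smul_def, AddSubgroupClass.coe_sub, smul_eq_mul, sub_mul,
        sum_sub_distrib, h, sub_self]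
    have hi := congrArg Subtype.val (Fintype.linearIndependent_iff.1 hx _ h0 i)
    simp only [AddSubgroupClass.coe_sub, ZeroMemClass.coe_zero, poly, ← sum_sub_distrib,
      ← sub_mul, ← map_sub] at hi
    set P : Polynomial (ZMod p) :=
      ∑ k : Fin t, Polynomial.C (a i k - b i k) * Polynomial.X ^ (k : ℕ)
    have hP : P = 0 := transcendental_iff.1 (transcendental_of_small (p := p) hπ0 hπ1) P
      (by simpa [P] using hi)
    funext k
    have hk := congrArg (fun P : Polynomial (ZMod p) => P.coeff k) hP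
    simp only [P, Polynomial.finsetSum_coeff, Polynomial.coeff_C_mul_X_pow,
      Polynomial.coeff_zero] at hk
    simpa [Fin.val_inj, sub_eq_zero] using hk
  have hpolyle : ∀ (v : AbsoluteValue K ℝ), IsNonarchimedean v → ∀ e,
      v (poly e) ≤ max (v π) 1 ^ t := by
    intro v hv e
    refine Finset.sum_induction _ (fun y => v y ≤ max (v π) 1 ^ t) (fun y z hy hz =>
      (hv y z).trans (max_le hy hz)) (by rw [map_zero]; positivity) fun k _ => ?_
    rw [map_mul, map_pow, hnat]
    refine (mul_le_of_le_one_left (pow_nonneg (v.nonneg _) _) hv.apply_natCast_le_one).trans ?_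
    exact (pow_le_pow_left₀ (v.nonneg _) (le_max_left _ _) _).trans
      (pow_le_pow_right₀ (le_max_right _ _) k.2.le)
  obtain ⟨y₁, h₁, y₂, h₂, hne, hclose⟩ := exists_close_scaled w hπ0 hdisc S hS L (t * j)
    (univ.image comb) (fun y hy => by
      obtain ⟨a, -, rfl⟩ := mem_image.1 hy
      have hv := AdmissibleAbsValues.isNonarchimedean w hw
      have h := coord_le x hv (fun i => poly (a i)) (fun i => hpolyle w hv (a i)) (by positivity)
      rw [max_eq_right hπ1.le, one_pow, one_mul] at h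
      refine (mul_le_mul h hL.le (pow_nonneg (w.nonneg _) _)
        (zero_le_one.trans (one_le_coord x w))).trans_eq ?_
      exact mul_inv_cancel₀ (zero_lt_one.trans_le (one_le_coord x w)).ne') (by
      rw [card_image_of_injective _ hinj, card_univ, Fintype.card_fun, Fintype.card_fun,
        Fintype.card_fin, Fintype.card_fin, ZMod.card, ← pow_mul]
      calc #S ^ (t * j) ≤ q ^ (t * j) := Nat.pow_le_pow_left (by omega) _
        _ ≤ (p ^ q) ^ (t * j) := Nat.pow_le_pow_left (Nat.lt_pow_self hp.one_lt).le _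
        _ < p ^ (t * (q * j + 1)) := by
          rw [← pow_mul]
          exact Nat.pow_lt_pow_right hp.one_lt (by nlinarith))
  obtain ⟨a, -, rfl⟩ := mem_image.1 h₁
  obtain ⟨b, -, rfl⟩ := mem_image.1 h₂
  set z := comb a - comb b
  have hz : z ≠ 0 := sub_ne_zero.2 hne
  have hzsum : z = ∑ i, poly (a i - b i) * x i := by
    simp [z, comb, poly, sub_mul, sum_sub_distrib]
  have harch : ∀ v ∈ archAbsVal (K := K), v z ≤ (2 * p * M) ^ t * A := fun v hv => by
    rw [hzsum]
    have hpM : (0 : ℝ) ≤ 2 * p * M := by positivity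
    refine (sum_le_mul x v _ (d := (2 * p * M) ^ t) fun i => ?_).trans
      (mul_le_mul_of_nonneg_left (sum_le_archCoord x hv) (pow_nonneg hpM _))
    have hvM : max (v π) 1 ≤ M := max_le ((Multiset.single_le_sum (fun y hy => by
      obtain ⟨u, -, rfl⟩ := Multiset.mem_map.1 hy
      exact u.nonneg _) _ (Multiset.mem_map_of_mem (fun v : AbsoluteValue K ℝ => v π) hv)).trans
        (le_add_of_nonneg_right zero_le_one)) hM1
    refine (v.sum_le _ _).trans ?_
    calc ∑ k : Fin t, v (algebraMap (ZMod p) K ((a i - b i) k) * π ^ (k : ℕ))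
        ≤ ∑ _k : Fin t, (p : ℝ) * M ^ t := sum_le_sum fun k _ => by
          rw [map_mul, map_pow, hnat]
          refine mul_le_mul ((apply_natCast_le v _).trans (Nat.cast_le.2 (ZMod.val_lt _).le))
            ?_ (pow_nonneg (v.nonneg _) _) (Nat.cast_nonneg _)
          exact (pow_le_pow_left₀ (v.nonneg _) ((le_max_left _ _).trans hvM) _).trans
            (pow_le_pow_right₀ hM1 k.2.le)
      _ = (t : ℝ) * p * M ^ t := by simp [mul_assoc]
      _ ≤ (2 * p * M) ^ t := by
          rw [mul_pow, mul_pow]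
          refine mul_le_mul_of_nonneg_right (mul_le_mul ?_ ?_ (Nat.cast_nonneg _) (by positivity))
            (by positivity)
          · exact_mod_cast Nat.lt_two_pow_self.le
          · exact le_self_pow₀ (Nat.one_le_cast.2 hp.one_le) (by omega)
  have hnon : ∀ v : nonarchAbsVal (K := K), v.val z ≤ dπ v ^ t * c v := fun v => by
    rw [hzsum]
    exact coord_le x (AdmissibleAbsValues.isNonarchimedean v.1 v.2) _
      (fun i => hpolyle v.1 (AdmissibleAbsValues.isNonarchimedean v.1 v.2) _) (by positivity)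
  have hc1 : ∀ v, 1 ≤ dπ v ^ t * c v := fun v =>
    one_le_mul_of_one_le_of_one_le (one_le_pow₀ (le_max_right _ _)) (one_le_coord x v.val)
  have hpow : (fun v => dπ v ^ t).HasFiniteMulSupport :=
    hdπ.subset (Function.mulSupport_pow _ _)
  have hfs := hasFiniteMulSupport_coord x hx0
  have h1 := prod_arch_le (archAbsVal (K := K)) harch
  have h2 := finprod_nonarch_le_mul hz
    ((hpow.union hfs).subset (Function.mulSupport_mul _ _)) hnon hc1 ⟨w, hw⟩
  rw [finprod_mul_distrib hpow hfs, ← finprod_pow hdπ] at h2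
  have h3 : w z ≤ 2 * w π ^ (t * j) / w π ^ L := (le_div_iff₀ (pow_pos hπ0 L)).2 hclose
  have hfp : 0 ≤ (∏ᶠ v, dπ v) ^ t * ∏ᶠ v, c v := mul_nonneg (pow_nonneg hD.le _)
    (finprod_nonneg fun v => zero_le_one.trans (one_le_coord x v.val))
  calc (1 : ℝ) = _ := (product_formula hz).symm
    _ ≤ ((2 * p * M) ^ t * A) ^ N *
        ((∏ᶠ v, dπ v) ^ t * (∏ᶠ v, c v) * (2 * w π ^ (t * j) / w π ^ L)) :=
        mul_le_mul h1 (h2.trans (mul_le_mul_of_nonneg_left h3 hfp))
          (finprod_nonneg fun v => v.val.nonneg z) (by positivity)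
    _ = _ := by
        rw [mul_pow ((2 * (p : ℝ) * M) ^ t), ← pow_mul (2 * (p : ℝ) * M) t N, mul_comm t N,
          pow_mul (2 * (p : ℝ) * M) N t, mul_comm t j, pow_mul (w π) j t,
          mul_pow ((2 * (p : ℝ) * M) ^ N * ∏ᶠ v, dπ v), mul_pow ((2 * (p : ℝ) * M) ^ N)]
        ring

/-- An archimedean member. -/
theorem finite_rat_of_arch {w : AbsoluteValue K ℝ} (hw : w ∈ archAbsVal (K := K))
    (h2 : 1 < w 2) : CharZero K ∧ ∀ [CharZero K], FiniteDimensional ℚ K := by
  classical
  have hcz := charZero_of_two w h2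
  refine ⟨hcz, fun {_} => ?_⟩
  obtain ⟨g, s, hs, hwg, hgq⟩ := exists_gauge w h2
  obtain ⟨φ, C, hC, hφ⟩ := exists_embedding g hgq
  set N := (archAbsVal (K := K)).card
  obtain ⟨n', hn'⟩ := exists_pow_lt_of_lt_one
    (show (0 : ℝ) < ((2 : ℝ) ^ N * 2 ^ s)⁻¹ by positivity)
    (show (1 / 2 : ℝ) ^ s < 1 from Real.rpow_lt_one (by norm_num) (by norm_num) hs)
  refine finiteDimensional_of_bound (2 * (n' + 2)) fun x hx => ?_
  have hx0 : ∀ i, x i ≠ 0 := fun i => hx.ne_zero i
  set A := archCoord x
  have hA1 : 1 ≤ A := le_add_of_nonneg_left (Multiset.sum_nonneg fun y hy => by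
    obtain ⟨u, -, rfl⟩ := Multiset.mem_map.1 hy
    exact sum_nonneg fun i _ => u.nonneg _)
  set G := ∑ i, g (x i) + 1
  have hG : 0 < G := add_pos_of_nonneg_of_pos (sum_nonneg fun i _ => g.nonneg _) one_pos
  set c := fun v : nonarchAbsVal (K := K) => coord x v.val
  refine false_of_geometric (C := (16 * C * C * G) ^ s * A ^ N * ∏ᶠ v, c v)
    (θ := (2 : ℝ) ^ N * 2 ^ s * ((1 / 2 : ℝ) ^ s) ^ (n' + 2)) (by positivity) ?_ fun t ht => ?_
  · have hpos : (0 : ℝ) < (2 : ℝ) ^ N * 2 ^ s := by positivity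
    have h := mul_lt_mul_of_pos_left hn' hpos
    rw [mul_inv_cancel₀ hpos.ne'] at h
    refine lt_of_le_of_lt (mul_le_mul_of_nonneg_left ?_ hpos.le) h
    exact pow_le_pow_of_le_one (by positivity)
      (Real.rpow_le_one (by norm_num) (by norm_num) hs.le) (by omega)
  set B := 2 ^ t
  let comb : (Fin (2 * (n' + 2)) → Fin B) → K := fun a => ∑ i, ((a i : ℕ) : K) * x i
  have hinj : Function.Injective comb := fun a b h => funext fun i => Fin.ext (by
    have h0 : ∑ i, (((a i : ℕ) : ℚ) - (b i : ℕ)) • x i = 0 := by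
      simp only [comb] at h
      simp only [Algebra.smul_def, map_sub, map_natCast, sub_mul, sum_sub_distrib, h, sub_self]
    exact_mod_cast sub_eq_zero.1 (Fintype.linearIndependent_iff.1 hx _ h0 i))
  obtain ⟨e, he⟩ : ∃ e, t * (n' + 2) = e + 2 := ⟨t * (n' + 2) - 2, by
    have : 2 ≤ t * (n' + 2) := by nlinarith
    omega⟩
  obtain ⟨y₁, h₁, y₂, h₂, hne, hclose⟩ := exists_close_plane (univ.image comb) φ
    (R := C * ((B : ℝ) * G)) (by positivity) e (fun y hy => by
      obtain ⟨a, -, rfl⟩ := mem_image.1 hy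
      refine (hφ _).2.trans (mul_le_mul_of_nonneg_left ?_ hC.le)
      exact (sum_le_mul x g _ fun i => (apply_natCast_le g _).trans
        (Nat.cast_le.2 (a i).2.le)).trans
          (mul_le_mul_of_nonneg_left (le_add_of_nonneg_right zero_le_one) (Nat.cast_nonneg _))) (by
      rw [card_image_of_injective _ hinj, card_univ, Fintype.card_fun, Fintype.card_fin,
        Fintype.card_fin, ← pow_mul]
      calc (2 ^ e + 1) ^ 2 ≤ (2 ^ (e + 1)) ^ 2 := Nat.pow_le_pow_left (by
            have := Nat.one_le_two_pow (n := e)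
            rw [pow_succ]
            omega) _
        _ < 2 ^ (t * (2 * (n' + 2))) := by
          rw [← pow_mul]
          exact Nat.pow_lt_pow_right one_lt_two (by nlinarith))
  obtain ⟨a, -, rfl⟩ := mem_image.1 h₁
  obtain ⟨b, -, rfl⟩ := mem_image.1 h₂
  set z := comb a - comb b
  have hz : z ≠ 0 := sub_ne_zero.2 hne
  have hzsum : z = ∑ i, ((((a i : ℕ) : ℤ) - (b i : ℕ) : ℤ) : K) * x i := by
    simp [z, comb, sub_mul, sum_sub_distrib]
  have harch : ∀ v ∈ (archAbsVal (K := K)).erase w, v z ≤ (B : ℝ) * A := fun v hv => by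
    rw [hzsum]
    refine (sum_le_mul x v _ (d := (B : ℝ)) fun i => ?_).trans (mul_le_mul_of_nonneg_left
      (sum_le_archCoord x (Multiset.mem_of_mem_erase hv)) (Nat.cast_nonneg _))
    refine (apply_intCast_le v _).trans (Nat.cast_le.2 ?_)
    have := (a i).2
    have := (b i).2
    omega
  have hnon : ∀ v : nonarchAbsVal (K := K), v.val z ≤ c v := fun v => by
    rw [hzsum]
    exact (coord_le x (AdmissibleAbsValues.isNonarchimedean v.1 v.2) _
      (fun i => (AdmissibleAbsValues.isNonarchimedean v.1 v.2).apply_intCast_le_one)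
      zero_le_one).trans_eq (one_mul _)
  have hgz : g z ≤ 16 * C * C * G * (2 * (1 / 2) ^ (n' + 2)) ^ t := by
    refine (hφ z).1.trans ?_
    rw [map_sub]
    refine (mul_le_mul_of_nonneg_left hclose hC.le).trans_eq ?_
    have e4 : (2 : ℝ) ^ e = ((2 : ℝ) ^ (n' + 2)) ^ t / 4 := by
      rw [← pow_mul, mul_comm, he, pow_add]
      ring
    simp only [B]
    rw [e4, Nat.cast_pow, Nat.cast_ofNat, mul_pow, one_div, inv_pow, inv_pow]
    field_simp
    ring
  have hwz : w z ≤ (16 * C * C * G) ^ s * ((2 : ℝ) ^ s * ((1 / 2 : ℝ) ^ s) ^ (n' + 2)) ^ t := by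
    rw [hwg]
    refine (Real.rpow_le_rpow (g.nonneg _) hgz hs.le).trans_eq ?_
    have e1 : ((2 : ℝ) * (1 / 2) ^ (n' + 2)) ^ s = 2 ^ s * ((1 / 2 : ℝ) ^ s) ^ (n' + 2) := by
      rw [Real.mul_rpow (by norm_num) (by positivity), Real.rpow_pow_comm (by norm_num)]
    rw [Real.mul_rpow (by positivity) (by positivity), ← Real.rpow_pow_comm (by positivity), e1]
  have h1 := prod_arch_le _ harch
  have hfs := hasFiniteMulSupport_coord x hx0
  have h2' := finprod_nonarch_le hz hfs hnon
  have hBA : 1 ≤ (B : ℝ) * A := one_le_mul_of_one_le_of_one_le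
    (Nat.one_le_cast.2 Nat.one_le_two_pow) hA1
  have h1' : (((archAbsVal (K := K)).erase w).map (· z)).prod ≤ ((B : ℝ) * A) ^ N :=
    h1.trans (pow_le_pow_right₀ hBA Multiset.card_erase_le)
  calc (1 : ℝ) = _ := (product_formula hz).symm
    _ = w z * (((archAbsVal (K := K)).erase w).map (· z)).prod *
        ∏ᶠ v : nonarchAbsVal (K := K), v.val z := by
      conv_lhs => rw [← Multiset.cons_erase hw, Multiset.map_cons, Multiset.prod_cons]
    _ ≤ (16 * C * C * G) ^ s * ((2 : ℝ) ^ s * ((1 / 2 : ℝ) ^ s) ^ (n' + 2)) ^ t *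
        ((B : ℝ) * A) ^ N * ∏ᶠ v, c v :=
      mul_le_mul (mul_le_mul hwz h1' (Multiset.prod_map_nonneg fun v _ => v.nonneg z)
        (by positivity)) h2' (finprod_nonneg fun v => v.val.nonneg z) (by positivity)
    _ = _ := by
      simp only [B]
      rw [Nat.cast_pow, Nat.cast_ofNat, mul_pow ((2 : ℝ) ^ t), ← pow_mul (2 : ℝ) t N, mul_comm t N,
        pow_mul (2 : ℝ) N t]
      simp only [mul_pow]
      ring

end FA.ArtinWhaples
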